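/-
S59, piece MIN/PATCH (helper63): the patching theorem proper, in the prelude's form
`Algebra.PatchingDatum 𝒪 ℓ r R M → Nonempty (Algebra.PatchingLevel 𝒪 r R M ⊥)`.

Part 1 (this file): analysis of ONE patching level `L : Algebra.PatchingLevel 𝒪 r R M J` with
`J ≤ (X_1, …, X_r)`.  `A = 𝒪⟦X_1..X_r⟧` acts on `L.N`; `S = A` acts through `L.φ`.

* `s59ptX`, `s59pt_mem_X_iff`, `s59pt_exists_sum_X` : the ideal `(X)` is the kernel of the constant
  coefficient;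
* `S59ptFrame L b` : `b : Fin d → L.N` is an `S ⧸ J`-basis of `L.N` (`L.b` is one);
* `s59pt_psi_phi` : `ψ (φ c) = c(0)`; `s59pt_pi_phi_smul`;
* `s59pt_mem_ker_iff` : the kernel of `π` in coordinates;
* `s59ptBasis` : `π ∘ b` is an `𝒪`-basis of `M`.
-/
import Mathlib
import Fermat.Prelude.Def_Algebra_PatchingDatum
import Fermat.Agent.RT.K2c.Local

set_option autoImplicit false
set_option linter.unusedSectionVars false
set_option linter.unusedVariables false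

namespace Fermat.Agent.S59

open MvPowerSeries IsLocalRing

section Basic

variable {𝒪 : Type} [CommRing 𝒪] {r : ℕ}

/-- the ideal `(X_1, …, X_r)` of `𝒪⟦X_1..X_r⟧` -/
noncomputable def s59ptX (𝒪 : Type) [CommRing 𝒪] (r : ℕ) : Ideal (MvPowerSeries (Fin r) 𝒪) :=
  Ideal.span (Set.range (MvPowerSeries.X : Fin r → MvPowerSeries (Fin r) 𝒪))

theorem s59pt_mem_X_iff (f : MvPowerSeries (Fin r) 𝒪) :
    f ∈ s59ptX 𝒪 r ↔ constantCoeff f = 0 := by
  have h := Fermat.Agent.RT.K2c.rtk2c_mem_M_iff (σ := Fin r) (⊥ : Ideal 𝒪) f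
  rw [Fermat.Agent.RT.K2c.rtk2cM, Ideal.map_bot, bot_sup_eq, Ideal.mem_bot] at h
  exact h

theorem s59pt_X_mem (i : Fin r) : (MvPowerSeries.X i : MvPowerSeries (Fin r) 𝒪) ∈ s59ptX 𝒪 r :=
  Ideal.subset_span ⟨i, rfl⟩

theorem s59pt_exists_sum_X {f : MvPowerSeries (Fin r) 𝒪} (hf : f ∈ s59ptX 𝒪 r) :
    ∃ w : Fin r → MvPowerSeries (Fin r) 𝒪, f = ∑ i, w i * MvPowerSeries.X i := by
  obtain ⟨w, hw⟩ := (Ideal.mem_span_range_iff_exists_fun).1 hf
  exact ⟨w, hw.symm⟩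

theorem s59pt_sub_C_mem (f : MvPowerSeries (Fin r) 𝒪) :
    f - MvPowerSeries.C (σ := Fin r) (R := 𝒪) (constantCoeff f) ∈ s59ptX 𝒪 r := by
  rw [s59pt_mem_X_iff, map_sub, constantCoeff_C, sub_self]

end Basic

section Level

variable {𝒪 : Type} [CommRing 𝒪] {r : ℕ} {R : Type} [CommRing R] [Algebra 𝒪 R]
  {M : Type} [AddCommGroup M] [Module R M] {J : Ideal (MvPowerSeries (Fin r) 𝒪)}
  (L : Algebra.PatchingLevel 𝒪 r R M J)

/-- `b` is a basis of `L.N` over `S ⧸ J` (`S` acting through `L.φ`). -/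
structure S59ptFrame {d : ℕ} (b : Fin d → L.N) : Prop where
  span : ∀ x : L.N, ∃ c : Fin d → MvPowerSeries (Fin r) 𝒪, x = ∑ i, L.φ (c i) • b i
  rel : ∀ c : Fin d → MvPowerSeries (Fin r) 𝒪, ∑ i, L.φ (c i) • b i = 0 ↔ ∀ i, c i ∈ J

theorem s59pt_frame_self : S59ptFrame L L.b := ⟨L.b_span, L.b_rel⟩

/-- `ψ ∘ φ` is the constant coefficient. -/
theorem s59pt_psi_phi (c : MvPowerSeries (Fin r) 𝒪) :
    L.ψ (L.φ c) = algebraMap 𝒪 R (constantCoeff c) := by
  obtain ⟨w, hw⟩ := s59pt_exists_sum_X (s59pt_sub_C_mem c)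
  have h1 : c = MvPowerSeries.C (σ := Fin r) (R := 𝒪) (constantCoeff c)
      + ∑ i, w i * MvPowerSeries.X i := by
    rw [← hw]; ring
  have h2 : L.ψ (L.φ (∑ i, w i * MvPowerSeries.X i)) = 0 := by
    rw [map_sum, map_sum]
    refine Finset.sum_eq_zero fun i _ => ?_
    rw [map_mul, map_mul, L.ψ_φ_X, mul_zero]
  have h3 : (MvPowerSeries.C (σ := Fin r) (R := 𝒪) (constantCoeff c))
      = algebraMap 𝒪 (MvPowerSeries (Fin r) 𝒪) (constantCoeff c) := rfl
  conv_lhs => rw [h1]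
  rw [map_add, map_add, h2, add_zero, h3, AlgHom.commutes, AlgHom.commutes]

theorem s59pt_phi_mem_span {u : MvPowerSeries (Fin r) 𝒪} (hu : u ∈ s59ptX 𝒪 r) :
    L.φ u ∈ Ideal.span (Set.range fun i : Fin r => L.φ (MvPowerSeries.X i)) := by
  obtain ⟨w, rfl⟩ := s59pt_exists_sum_X hu
  rw [map_sum]
  refine Ideal.sum_mem _ fun i _ => ?_
  rw [map_mul]
  exact Ideal.mul_mem_left _ _ (Ideal.subset_span ⟨i, rfl⟩)

theorem s59pt_psi_eq_zero_of_mem_span {a : MvPowerSeries (Fin r) 𝒪}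
    (ha : a ∈ Ideal.span (Set.range fun i : Fin r => L.φ (MvPowerSeries.X i))) :
    L.ψ a = 0 := by
  have h : Ideal.span (Set.range fun i : Fin r => L.φ (MvPowerSeries.X i))
      ≤ RingHom.ker (L.ψ : MvPowerSeries (Fin r) 𝒪 →+* R) := by
    rw [Ideal.span_le]
    rintro _ ⟨i, rfl⟩
    exact L.ψ_φ_X i
  exact h ha

variable {L} {d : ℕ} {b : Fin d → L.N} (hb : S59ptFrame L b)

include hb in
/-- coordinates are unique modulo `J` -/
theorem s59pt_frame_unique {c c' : Fin d → MvPowerSeries (Fin r) 𝒪}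
    (h : ∑ i, L.φ (c i) • b i = ∑ i, L.φ (c' i) • b i) (i : Fin d) : c i - c' i ∈ J := by
  have h1 : ∑ i, L.φ ((c - c') i) • b i = 0 := by
    simp only [Pi.sub_apply, map_sub, sub_smul, Finset.sum_sub_distrib]
    rw [h, sub_self]
  exact (hb.rel (c - c')).1 h1 i

include hb in
/-- the elements of `(φ X) • N` in coordinates -/
theorem s59pt_exists_of_mem_smul {x : L.N}
    (hx : x ∈ (Ideal.span (Set.range fun i : Fin r => L.φ (MvPowerSeries.X i))) •
      (⊤ : Submodule (MvPowerSeries (Fin r) 𝒪) L.N)) :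
    ∃ u : Fin d → MvPowerSeries (Fin r) 𝒪, (∀ i, u i ∈ s59ptX 𝒪 r) ∧
      x = ∑ i, L.φ (u i) • b i := by
  refine Submodule.smul_induction_on hx ?_ ?_
  · intro a ha y _
    -- `a = Σ g_k φ(X_k)`
    obtain ⟨g, hg⟩ := (Ideal.mem_span_range_iff_exists_fun).1 ha
    have hy : ∀ k : Fin r, ∃ v : Fin d → MvPowerSeries (Fin r) 𝒪,
        g k • y = ∑ i, L.φ (v i) • b i := fun k => hb.span _
    choose v hv using hy
    refine ⟨fun i => ∑ k, MvPowerSeries.X k * v k i, fun i => ?_, ?_⟩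
    · exact Ideal.sum_mem _ fun k _ => Ideal.mul_mem_right _ _ (s59pt_X_mem k)
    · rw [← hg, Finset.sum_smul]
      have h1 : ∀ k : Fin r, (g k * L.φ (MvPowerSeries.X k)) • y
          = ∑ i, L.φ (MvPowerSeries.X k * v k i) • b i := by
        intro k
        rw [mul_comm, mul_smul, hv k, Finset.smul_sum]
        refine Finset.sum_congr rfl fun i _ => ?_
        rw [smul_smul, map_mul]
      simp only [h1]
      rw [Finset.sum_comm]
      refine Finset.sum_congr rfl fun i _ => ?_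
      rw [map_sum, Finset.sum_smul]
  · rintro x y ⟨u, hu, rfl⟩ ⟨v, hv, rfl⟩
    refine ⟨u + v, fun i => Ideal.add_mem _ (hu i) (hv i), ?_⟩
    simp only [Pi.add_apply, map_add, add_smul, Finset.sum_add_distrib]

theorem s59pt_mem_smul_of_forall {u : Fin d → MvPowerSeries (Fin r) 𝒪}
    (hu : ∀ i, u i ∈ s59ptX 𝒪 r) :
    ∑ i, L.φ (u i) • b i ∈ (Ideal.span (Set.range fun i : Fin r => L.φ (MvPowerSeries.X i))) •
      (⊤ : Submodule (MvPowerSeries (Fin r) 𝒪) L.N) :=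
  Submodule.sum_mem _ fun i _ =>
    Submodule.smul_mem_smul (s59pt_phi_mem_span L (hu i)) Submodule.mem_top

variable [Module 𝒪 M] [IsScalarTower 𝒪 R M]

/-- `π (φ c • x) = c(0) • π x` -/
theorem s59pt_pi_phi_smul (L : Algebra.PatchingLevel 𝒪 r R M J)
    (c : MvPowerSeries (Fin r) 𝒪) (x : L.N) :
    L.π (L.φ c • x) = (constantCoeff c : 𝒪) • L.π x := by
  rw [L.π_smul, s59pt_psi_phi, algebraMap_smul]

theorem s59pt_pi_sum (L : Algebra.PatchingLevel 𝒪 r R M J) {d : ℕ} (b : Fin d → L.N)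
    (c : Fin d → MvPowerSeries (Fin r) 𝒪) :
    L.π (∑ i, L.φ (c i) • b i) = ∑ i, (constantCoeff (c i) : 𝒪) • L.π (b i) := by
  rw [map_sum]
  exact Finset.sum_congr rfl fun i _ => s59pt_pi_phi_smul L _ _

include hb in
theorem s59pt_linearIndependent (hJ : J ≤ s59ptX 𝒪 r) :
    LinearIndependent 𝒪 (fun i => L.π (b i)) := by
  rw [Fintype.linearIndependent_iff]
  intro a ha i
  have h1 : L.π (∑ i, L.φ (MvPowerSeries.C (σ := Fin r) (R := 𝒪) (a i)) • b i) = 0 := by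
    rw [s59pt_pi_sum]
    simpa using ha
  obtain ⟨u, hu, hu2⟩ := s59pt_exists_of_mem_smul hb ((L.ker_π _).1 h1)
  have h2 := s59pt_frame_unique hb hu2 i
  have h3 : MvPowerSeries.C (σ := Fin r) (R := 𝒪) (a i) ∈ s59ptX 𝒪 r := by
    have := Ideal.add_mem _ (hJ h2) (hu i)
    simpa using this
  rw [s59pt_mem_X_iff, constantCoeff_C] at h3
  exact h3

include hb in
theorem s59pt_span_top : ⊤ ≤ Submodule.span 𝒪 (Set.range fun i => L.π (b i)) := by
  intro m _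
  obtain ⟨x, rfl⟩ := L.π_surjective m
  obtain ⟨c, rfl⟩ := hb.span x
  rw [s59pt_pi_sum]
  exact Submodule.sum_mem _ fun i _ =>
    Submodule.smul_mem _ _ (Submodule.subset_span ⟨i, rfl⟩)

/-- `π ∘ b` is an `𝒪`-basis of `M`. -/
noncomputable def s59ptBasis (hb : S59ptFrame L b) (hJ : J ≤ s59ptX 𝒪 r) :
    Module.Basis (Fin d) 𝒪 M :=
  Module.Basis.mk (s59pt_linearIndependent hb hJ) (s59pt_span_top hb)

theorem s59ptBasis_apply (hJ : J ≤ s59ptX 𝒪 r) (i : Fin d) :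
    s59ptBasis hb hJ i = L.π (b i) := by
  unfold s59ptBasis
  rw [Module.Basis.mk_apply]

end Level

end Fermat.Agent.S59
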