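/-
S59, piece MIN/PATCH (helper63), part 2: a patching level in MATRIX form.

`L : Algebra.PatchingLevel 𝒪 r R M J`, `b : Fin d → L.N` a frame (`S59ptFrame L b`).
* `s59pt_exists_adapted` : for every `𝒪`-basis `m` of `M` there is a frame `b'` with `π ∘ b' = m`;
* `S59ptLift b f P`      : `P ∈ M_d(A)` represents the action of `f ∈ A` on `L.N` in the frame `b`;
* `s59ptRep hb K hJK`    : the algebra hom `A →ₐ[𝒪] M_d(A ⧸ K)` (`J ≤ K`) of the action;
* `s59ptRep_phi`         : `ρ (φ c) = c` (scalar);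
* `s59ptTheta m`         : the action of `R` on `M` in the basis `m`, `R →+* M_d(𝒪)`;
* `s59pt_theta_psi`      : `Θ (ψ f) = P(0)` for every lift `P` of `f`.
-/
import Fermat.Agent.S59.Patch.Frame

set_option autoImplicit false
set_option linter.unusedSectionVars false
set_option linter.unusedVariables false

namespace Fermat.Agent.S59

open MvPowerSeries IsLocalRing

section Comb

variable {𝒪 : Type} [CommRing 𝒪] {r : ℕ} {R : Type} [CommRing R] [Algebra 𝒪 R]
  {M : Type} [AddCommGroup M] [Module R M] {J : Ideal (MvPowerSeries (Fin r) 𝒪)}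
  (L : Algebra.PatchingLevel 𝒪 r R M J)

/-- the family `Σ_i φ(H i j) • b i` -/
noncomputable def s59ptComb {d d' : ℕ} (b : Fin d' → L.N)
    (H : Matrix (Fin d') (Fin d) (MvPowerSeries (Fin r) 𝒪)) (j : Fin d) : L.N :=
  ∑ i, L.φ (H i j) • b i

theorem s59pt_sum_comb {d d' : ℕ} (b : Fin d' → L.N)
    (H : Matrix (Fin d') (Fin d) (MvPowerSeries (Fin r) 𝒪))
    (c : Fin d → MvPowerSeries (Fin r) 𝒪) :
    ∑ j, L.φ (c j) • s59ptComb L b H j = ∑ i, L.φ (H.mulVec c i) • b i := by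
  unfold s59ptComb
  simp only [Finset.smul_sum, smul_smul]
  rw [Finset.sum_comm]
  refine Finset.sum_congr rfl fun i _ => ?_
  rw [Matrix.mulVec, dotProduct, map_sum, Finset.sum_smul]
  refine Finset.sum_congr rfl fun j _ => ?_
  rw [map_mul, mul_comm]

variable {L}

/-- change of frame by an invertible matrix -/
theorem s59pt_frame_comb {d d' : ℕ} {b : Fin d' → L.N} (hb : S59ptFrame L b)
    (H : Matrix (Fin d') (Fin d) (MvPowerSeries (Fin r) 𝒪))
    (H' : Matrix (Fin d) (Fin d') (MvPowerSeries (Fin r) 𝒪))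
    (h1 : H * H' = 1) (h2 : H' * H = 1) : S59ptFrame L (s59ptComb L b H) := by
  constructor
  · intro x
    obtain ⟨a, rfl⟩ := hb.span x
    refine ⟨H'.mulVec a, ?_⟩
    rw [s59pt_sum_comb, Matrix.mulVec_mulVec, h1, Matrix.one_mulVec]
  · intro c
    rw [s59pt_sum_comb, hb.rel]
    constructor
    · intro h j
      have h3 : c = H'.mulVec (H.mulVec c) := by
        rw [Matrix.mulVec_mulVec, h2, Matrix.one_mulVec]
      rw [h3, Matrix.mulVec, dotProduct]
      exact Ideal.sum_mem _ fun i _ => Ideal.mul_mem_left _ _ (h i)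
    · intro h i
      rw [Matrix.mulVec, dotProduct]
      exact Ideal.sum_mem _ fun j _ => Ideal.mul_mem_left _ _ (h j)

variable [Module 𝒪 M] [IsScalarTower 𝒪 R M]

/-- **adapted frames**: every `𝒪`-basis of `M` is the image of a frame. -/
theorem s59pt_exists_adapted {d d' : ℕ} {b : Fin d' → L.N} (hb : S59ptFrame L b)
    (hJ : J ≤ s59ptX 𝒪 r) (m : Module.Basis (Fin d) 𝒪 M) :
    ∃ b' : Fin d → L.N, S59ptFrame L b' ∧ ∀ j, L.π (b' j) = m j := by
  classical
  set B := s59ptBasis hb hJ with hB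
  let h : Matrix (Fin d') (Fin d) 𝒪 := B.toMatrix m
  let h' : Matrix (Fin d) (Fin d') 𝒪 := m.toMatrix B
  have e1 : h * h' = 1 := Module.Basis.toMatrix_mul_toMatrix_flip B m
  have e2 : h' * h = 1 := Module.Basis.toMatrix_mul_toMatrix_flip m B
  let Cr : 𝒪 →+* MvPowerSeries (Fin r) 𝒪 := MvPowerSeries.C (σ := Fin r) (R := 𝒪)
  refine ⟨s59ptComb L b (h.map Cr), s59pt_frame_comb hb (h.map Cr) (h'.map Cr) ?_ ?_, ?_⟩
  · rw [← Matrix.map_mul, e1, Matrix.map_one _ (map_zero Cr) (map_one Cr)]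
  · rw [← Matrix.map_mul, e2, Matrix.map_one _ (map_zero Cr) (map_one Cr)]
  · intro j
    unfold s59ptComb
    rw [s59pt_pi_sum]
    have h3 : ∀ i, (constantCoeff ((h.map Cr) i j) : 𝒪) • L.π (b i) = B.repr (m j) i • B i := by
      intro i
      rw [Matrix.map_apply, s59ptBasis_apply]
      show (constantCoeff (MvPowerSeries.C (σ := Fin r) (R := 𝒪) (h i j)) : 𝒪) • _ = _
      rw [constantCoeff_C]
      rfl
    simp only [h3]
    exact B.sum_repr (m j)

end Comb

section Rep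

variable {𝒪 : Type} [CommRing 𝒪] {r : ℕ} {R : Type} [CommRing R] [Algebra 𝒪 R]
  {M : Type} [AddCommGroup M] [Module R M] {J : Ideal (MvPowerSeries (Fin r) 𝒪)}
  {L : Algebra.PatchingLevel 𝒪 r R M J} {d : ℕ}

/-- `P` represents the action of `f` on `L.N` in the frame `b`. -/
def S59ptLift (b : Fin d → L.N) (f : MvPowerSeries (Fin r) 𝒪)
    (P : Matrix (Fin d) (Fin d) (MvPowerSeries (Fin r) 𝒪)) : Prop :=
  ∀ j, f • b j = ∑ i, L.φ (P i j) • b i

variable {b : Fin d → L.N} (hb : S59ptFrame L b)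

include hb in
theorem s59pt_exists_lift (f : MvPowerSeries (Fin r) 𝒪) : ∃ P, S59ptLift b f P := by
  have h : ∀ j, ∃ c : Fin d → MvPowerSeries (Fin r) 𝒪, f • b j = ∑ i, L.φ (c i) • b i :=
    fun j => hb.span _
  choose c hc using h
  exact ⟨Matrix.of fun i j => c j i, fun j => hc j⟩

include hb in
theorem s59pt_lift_unique {f : MvPowerSeries (Fin r) 𝒪}
    {P P' : Matrix (Fin d) (Fin d) (MvPowerSeries (Fin r) 𝒪)}
    (h : S59ptLift b f P) (h' : S59ptLift b f P') (i j : Fin d) : P i j - P' i j ∈ J :=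
  s59pt_frame_unique hb (c := fun i => P i j) (c' := fun i => P' i j) ((h j).symm.trans (h' j)) i

/-- the action on a general element -/
theorem s59pt_lift_apply {f : MvPowerSeries (Fin r) 𝒪}
    {P : Matrix (Fin d) (Fin d) (MvPowerSeries (Fin r) 𝒪)} (h : S59ptLift b f P)
    (c : Fin d → MvPowerSeries (Fin r) 𝒪) :
    f • ∑ j, L.φ (c j) • b j = ∑ i, L.φ (P.mulVec c i) • b i := by
  rw [Finset.smul_sum]
  have h1 : ∀ j, f • L.φ (c j) • b j = ∑ i, L.φ (P i j * c j) • b i := by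
    intro j
    rw [smul_comm, h j, Finset.smul_sum]
    refine Finset.sum_congr rfl fun i _ => ?_
    rw [smul_smul, map_mul, mul_comm]
  simp only [h1]
  rw [Finset.sum_comm]
  refine Finset.sum_congr rfl fun i _ => ?_
  rw [Matrix.mulVec, dotProduct, map_sum, Finset.sum_smul]

theorem s59pt_lift_one : S59ptLift b (1 : MvPowerSeries (Fin r) 𝒪) 1 := by
  classical
  intro j
  rw [one_smul, Finset.sum_eq_single j]
  · rw [Matrix.one_apply_eq, map_one, one_smul]
  · intro i _ hij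
    rw [Matrix.one_apply_ne hij, map_zero, zero_smul]
  · intro h
    exact absurd (Finset.mem_univ j) h

theorem s59pt_lift_mul {f g : MvPowerSeries (Fin r) 𝒪}
    {P Q : Matrix (Fin d) (Fin d) (MvPowerSeries (Fin r) 𝒪)}
    (hf : S59ptLift b f P) (hg : S59ptLift b g Q) : S59ptLift b (f * g) (P * Q) := by
  intro j
  rw [mul_smul, hg j, s59pt_lift_apply hf]
  refine Finset.sum_congr rfl fun i _ => ?_
  congr 2

theorem s59pt_lift_add {f g : MvPowerSeries (Fin r) 𝒪}
    {P Q : Matrix (Fin d) (Fin d) (MvPowerSeries (Fin r) 𝒪)}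
    (hf : S59ptLift b f P) (hg : S59ptLift b g Q) : S59ptLift b (f + g) (P + Q) := by
  intro j
  rw [add_smul, hf j, hg j, ← Finset.sum_add_distrib]
  refine Finset.sum_congr rfl fun i _ => ?_
  rw [Matrix.add_apply, map_add, add_smul]

/-- `φ c` acts as the scalar `c` -/
theorem s59pt_lift_phi (c : MvPowerSeries (Fin r) 𝒪) :
    S59ptLift b (L.φ c)
      (algebraMap (MvPowerSeries (Fin r) 𝒪) (Matrix (Fin d) (Fin d) (MvPowerSeries (Fin r) 𝒪)) c) := by
  classical
  intro j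
  rw [Finset.sum_eq_single j]
  · rw [Matrix.algebraMap_matrix_apply, if_pos rfl]
    rfl
  · intro i _ hij
    rw [Matrix.algebraMap_matrix_apply, if_neg hij, map_zero, zero_smul]
  · intro h
    exact absurd (Finset.mem_univ j) h

theorem s59pt_lift_algebraMap (a : 𝒪) :
    S59ptLift b (algebraMap 𝒪 (MvPowerSeries (Fin r) 𝒪) a)
      (algebraMap 𝒪 (Matrix (Fin d) (Fin d) (MvPowerSeries (Fin r) 𝒪)) a) := by
  have h := s59pt_lift_phi (L := L) (b := b) (algebraMap 𝒪 (MvPowerSeries (Fin r) 𝒪) a)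
  rw [AlgHom.commutes] at h
  rw [IsScalarTower.algebraMap_apply 𝒪 (MvPowerSeries (Fin r) 𝒪)
    (Matrix (Fin d) (Fin d) (MvPowerSeries (Fin r) 𝒪))]
  exact h

/-- a chosen lift -/
noncomputable def s59ptChoose (hb : S59ptFrame L b) (f : MvPowerSeries (Fin r) 𝒪) :
    Matrix (Fin d) (Fin d) (MvPowerSeries (Fin r) 𝒪) :=
  (s59pt_exists_lift hb f).choose

theorem s59ptChoose_spec (f : MvPowerSeries (Fin r) 𝒪) : S59ptLift b f (s59ptChoose hb f) :=
  (s59pt_exists_lift hb f).choose_spec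

include hb in
theorem s59pt_map_eq {K : Ideal (MvPowerSeries (Fin r) 𝒪)} (hJK : J ≤ K)
    {f : MvPowerSeries (Fin r) 𝒪}
    {P P' : Matrix (Fin d) (Fin d) (MvPowerSeries (Fin r) 𝒪)}
    (h : S59ptLift b f P) (h' : S59ptLift b f P') :
    P.map (Ideal.Quotient.mk K) = P'.map (Ideal.Quotient.mk K) := by
  ext i j
  rw [Matrix.map_apply, Matrix.map_apply, Ideal.Quotient.eq]
  exact hJK (s59pt_lift_unique hb h h' i j)

/-- **the matrix representation** of the action of `A` on `L.N`, modulo `K ⊇ J`. -/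
noncomputable def s59ptRep (hb : S59ptFrame L b) (K : Ideal (MvPowerSeries (Fin r) 𝒪))
    (hJK : J ≤ K) :
    MvPowerSeries (Fin r) 𝒪 →ₐ[𝒪] Matrix (Fin d) (Fin d) (MvPowerSeries (Fin r) 𝒪 ⧸ K) where
  toFun f := (s59ptChoose hb f).map (Ideal.Quotient.mk K)
  map_one' := by
    rw [s59pt_map_eq hb hJK (s59ptChoose_spec hb 1) s59pt_lift_one]
    exact Matrix.map_one _ (map_zero _) (map_one _)
  map_mul' f g := by
    rw [s59pt_map_eq hb hJK (s59ptChoose_spec hb (f * g))
      (s59pt_lift_mul (s59ptChoose_spec hb f) (s59ptChoose_spec hb g))]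
    exact Matrix.map_mul
  map_zero' := by
    have h0 : S59ptLift b (0 : MvPowerSeries (Fin r) 𝒪) 0 := by
      intro j
      simp
    rw [s59pt_map_eq hb hJK (s59ptChoose_spec hb 0) h0]
    exact Matrix.map_zero _ (map_zero _)
  map_add' f g := by
    rw [s59pt_map_eq hb hJK (s59ptChoose_spec hb (f + g))
      (s59pt_lift_add (s59ptChoose_spec hb f) (s59ptChoose_spec hb g))]
    exact Matrix.map_add _ (map_add _) _ _
  commutes' a := by
    rw [s59pt_map_eq hb hJK (s59ptChoose_spec hb _) (s59pt_lift_algebraMap a)]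
    ext i j
    simp only [Matrix.map_apply, Matrix.algebraMap_matrix_apply]
    split_ifs
    · rfl
    · exact map_zero _

theorem s59ptRep_eq (K : Ideal (MvPowerSeries (Fin r) 𝒪)) (hJK : J ≤ K)
    {f : MvPowerSeries (Fin r) 𝒪} {P : Matrix (Fin d) (Fin d) (MvPowerSeries (Fin r) 𝒪)}
    (h : S59ptLift b f P) : s59ptRep hb K hJK f = P.map (Ideal.Quotient.mk K) :=
  s59pt_map_eq hb hJK (s59ptChoose_spec hb f) h

/-- `ρ (φ c) = c` -/
theorem s59ptRep_phi (K : Ideal (MvPowerSeries (Fin r) 𝒪)) (hJK : J ≤ K)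
    (c : MvPowerSeries (Fin r) 𝒪) :
    s59ptRep hb K hJK (L.φ c) =
      algebraMap (MvPowerSeries (Fin r) 𝒪)
        (Matrix (Fin d) (Fin d) (MvPowerSeries (Fin r) 𝒪 ⧸ K)) c := by
  rw [s59ptRep_eq hb K hJK (s59pt_lift_phi c)]
  ext i j
  simp only [Matrix.map_apply, Matrix.algebraMap_matrix_apply]
  split_ifs
  · rfl
  · exact map_zero _

end Rep

section Theta

variable {𝒪 : Type} [CommRing 𝒪] {r : ℕ} {R : Type} [CommRing R] [Algebra 𝒪 R]
  {M : Type} [AddCommGroup M] [Module R M] [Module 𝒪 M] [IsScalarTower 𝒪 R M]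
  {J : Ideal (MvPowerSeries (Fin r) 𝒪)} {d : ℕ}

/-- the action of `R` on `M` in the `𝒪`-basis `m` -/
noncomputable def s59ptTheta (m : Module.Basis (Fin d) 𝒪 M) :
    R →+* Matrix (Fin d) (Fin d) 𝒪 :=
  ((LinearMap.toMatrixAlgEquiv m : Module.End 𝒪 M ≃ₐ[𝒪] Matrix (Fin d) (Fin d) 𝒪) :
      Module.End 𝒪 M →+* Matrix (Fin d) (Fin d) 𝒪).comp
    (Module.toModuleEnd 𝒪 (S := R) M)

theorem s59ptTheta_apply (m : Module.Basis (Fin d) 𝒪 M) (y : R) (i j : Fin d) :
    s59ptTheta m y i j = m.repr (y • m j) i := by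
  unfold s59ptTheta
  simp [LinearMap.toMatrixAlgEquiv_apply]

/-- `Θ (ψ f) = P(0)` for every lift `P` of `f` in a frame adapted to `m`. -/
theorem s59pt_theta_psi {L : Algebra.PatchingLevel 𝒪 r R M J} {b : Fin d → L.N}
    (m : Module.Basis (Fin d) 𝒪 M) (hm : ∀ j, L.π (b j) = m j)
    {f : MvPowerSeries (Fin r) 𝒪} {P : Matrix (Fin d) (Fin d) (MvPowerSeries (Fin r) 𝒪)}
    (h : S59ptLift b f P) :
    s59ptTheta m (L.ψ f) = P.map (constantCoeff (σ := Fin r) (R := 𝒪)) := by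
  ext i j
  rw [s59ptTheta_apply, Matrix.map_apply, ← hm j, ← L.π_smul, h j, s59pt_pi_sum]
  simp only [hm]
  rw [m.repr_sum_self]

end Theta

end Fermat.Agent.S59
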