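/-
S59, piece MIN/PATCH (helper63), part 4: **the patching theorem** in the prelude's form

  `s59pt_main : Algebra.PatchingDatum 𝒪 ℓ r R M → Nonempty (Algebra.PatchingLevel 𝒪 r R M ⊥)`

for a complete DVR `𝒪` with finite residue field of characteristic dividing `ℓ`.
With S57 (`Algebra.PatchingLevel.…` descent step) this gives: `M` is free over `R`, and `R` is a
complete intersection `𝒪⟦X⟧ ⧸ (f_1, …, f_r)`.

* `s59pt_J_le_X`, `s59pt_J_le_pow` : `J_n ≤ (X)`, `J_n ≤ 𝔪 ^ (n + 1)`;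
* `S59ptMod ρ` : the module `A^d` with `A` acting through `ρ : A → M_d(A)`;
* `s59pt_level_of_lim` : a limit datum (`S59ptLim`) gives a patching level with `J = ⊥`;
* `s59pt_lev` : every level of a patching datum gives a level datum (`S59ptLev`);
* `s59pt_main`.
-/
import Fermat.Agent.S59.Patch.Rep
import Fermat.Agent.S59.Patch.Limit

set_option autoImplicit false
set_option linter.unusedSectionVars false
set_option linter.unusedVariables false
set_option linter.style.haveILetI false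

namespace Fermat.Agent.S59

open MvPowerSeries IsLocalRing

section Ideals

variable {𝒪 : Type} [CommRing 𝒪] {r : ℕ}

theorem s59pt_J_le_X (ℓ n : ℕ) :
    Ideal.span (Set.range fun j : Fin r =>
      ((1 + MvPowerSeries.X j) ^ (ℓ ^ n) - 1 : MvPowerSeries (Fin r) 𝒪)) ≤ s59ptX 𝒪 r := by
  rw [Ideal.span_le]
  rintro _ ⟨j, rfl⟩
  show _ ∈ s59ptX 𝒪 r
  rw [s59pt_mem_X_iff, map_sub, map_pow, map_add, map_one, MvPowerSeries.constantCoeff_X,
    add_zero, one_pow, sub_self]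

variable [IsLocalRing 𝒪]

theorem s59pt_mem_maximalIdeal_iff (f : MvPowerSeries (Fin r) 𝒪) :
    f ∈ maximalIdeal (MvPowerSeries (Fin r) 𝒪) ↔ constantCoeff f ∈ maximalIdeal 𝒪 := by
  rw [Fermat.Agent.RT.K2c.rtk2c_maximalIdeal_eq, Fermat.Agent.RT.K2c.rtk2c_mem_M_iff]

theorem s59pt_u_mem_pow (ℓ : ℕ) (hℓ : (ℓ : 𝒪) ∈ maximalIdeal 𝒪) (j : Fin r) (n : ℕ) :
    ((1 + MvPowerSeries.X j) ^ (ℓ ^ n) - 1 : MvPowerSeries (Fin r) 𝒪) ∈
      maximalIdeal (MvPowerSeries (Fin r) 𝒪) ^ (n + 1) := by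
  induction n with
  | zero =>
    simp only [pow_zero, pow_one, zero_add]
    rw [add_sub_cancel_left, s59pt_mem_maximalIdeal_iff, MvPowerSeries.constantCoeff_X]
    exact Ideal.zero_mem _
  | succ n ih =>
    have h1 : ((1 + MvPowerSeries.X j) ^ (ℓ ^ (n + 1)) - 1 : MvPowerSeries (Fin r) 𝒪)
        = ((1 + MvPowerSeries.X j) ^ (ℓ ^ n) - 1) *
          ∑ i ∈ Finset.range ℓ, ((1 + MvPowerSeries.X j) ^ (ℓ ^ n)) ^ i := by
      rw [mul_geom_sum, ← pow_mul, ← pow_succ]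
    have h2 : (∑ i ∈ Finset.range ℓ,
        ((1 + MvPowerSeries.X j : MvPowerSeries (Fin r) 𝒪) ^ (ℓ ^ n)) ^ i)
        ∈ maximalIdeal (MvPowerSeries (Fin r) 𝒪) := by
      rw [s59pt_mem_maximalIdeal_iff, map_sum]
      have h3 : ∀ i ∈ Finset.range ℓ, constantCoeff
          (((1 + MvPowerSeries.X j : MvPowerSeries (Fin r) 𝒪) ^ (ℓ ^ n)) ^ i) = (1 : 𝒪) := by
        intro i _
        rw [map_pow, map_pow, map_add, map_one, MvPowerSeries.constantCoeff_X, add_zero,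
          one_pow, one_pow]
      rw [Finset.sum_congr rfl h3, Finset.sum_const, Finset.card_range, nsmul_eq_mul, mul_one]
      exact hℓ
    rw [h1, pow_succ (maximalIdeal (MvPowerSeries (Fin r) 𝒪)) (n + 1)]
    exact Ideal.mul_mem_mul ih h2

theorem s59pt_J_le_pow (ℓ : ℕ) (hℓ : (ℓ : 𝒪) ∈ maximalIdeal 𝒪) (n : ℕ) :
    Ideal.span (Set.range fun j : Fin r =>
      ((1 + MvPowerSeries.X j) ^ (ℓ ^ n) - 1 : MvPowerSeries (Fin r) 𝒪)) ≤
      maximalIdeal (MvPowerSeries (Fin r) 𝒪) ^ n := by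
  rw [Ideal.span_le]
  rintro _ ⟨j, rfl⟩
  exact Ideal.pow_le_pow_right (Nat.le_succ n) (s59pt_u_mem_pow ℓ hℓ j n)

theorem s59pt_eps_pow (k : ℕ) :
    maximalIdeal (MvPowerSeries (Fin r) 𝒪) ^ k ≤
      (maximalIdeal 𝒪 ^ k).comap (constantCoeff (σ := Fin r) (R := 𝒪)) := by
  have h1 : maximalIdeal (MvPowerSeries (Fin r) 𝒪) ≤
      (maximalIdeal 𝒪).comap (constantCoeff (σ := Fin r) (R := 𝒪)) := by
    intro f hf
    rw [Ideal.mem_comap]
    exact (s59pt_mem_maximalIdeal_iff f).1 hf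
  exact (Ideal.pow_right_mono h1 k).trans (Ideal.le_comap_pow _ k)

end Ideals

section Mod

variable {A : Type} [CommRing A] {d : ℕ}

/-- the module `A^d`, with `A` acting through `ρ : A → M_d(A)` -/
def S59ptMod (ρ : A →+* Matrix (Fin d) (Fin d) A) : Type := Fin d → A

noncomputable instance s59ptModAddCommGroup (ρ : A →+* Matrix (Fin d) (Fin d) A) :
    AddCommGroup (S59ptMod ρ) :=
  inferInstanceAs (AddCommGroup (Fin d → A))

theorem s59pt_mulVec_one (ρ : A →+* Matrix (Fin d) (Fin d) A) (x : Fin d → A) :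
    (ρ 1).mulVec x = x := by
  rw [map_one, Matrix.one_mulVec]

theorem s59pt_mulVec_mul (ρ : A →+* Matrix (Fin d) (Fin d) A) (f g : A) (x : Fin d → A) :
    (ρ (f * g)).mulVec x = (ρ f).mulVec ((ρ g).mulVec x) := by
  rw [map_mul, Matrix.mulVec_mulVec]

theorem s59pt_mulVec_add (ρ : A →+* Matrix (Fin d) (Fin d) A) (f g : A) (x : Fin d → A) :
    (ρ (f + g)).mulVec x = (ρ f).mulVec x + (ρ g).mulVec x := by
  rw [map_add, Matrix.add_mulVec]

theorem s59pt_mulVec_zero (ρ : A →+* Matrix (Fin d) (Fin d) A) (x : Fin d → A) :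
    (ρ 0).mulVec x = 0 := by
  rw [map_zero, Matrix.zero_mulVec]

noncomputable instance s59ptModModule (ρ : A →+* Matrix (Fin d) (Fin d) A) :
    Module A (S59ptMod ρ) where
  smul f x := (ρ f).mulVec x
  one_smul x := s59pt_mulVec_one ρ x
  mul_smul f g x := s59pt_mulVec_mul ρ f g x
  smul_zero f := Matrix.mulVec_zero (ρ f)
  smul_add f x y := Matrix.mulVec_add (ρ f) x y
  add_smul f g x := s59pt_mulVec_add ρ f g x
  zero_smul x := s59pt_mulVec_zero ρ x

variable (ρ : A →+* Matrix (Fin d) (Fin d) A)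

/-- an element of `S59ptMod ρ` from its coordinates -/
def s59ptModMk (x : Fin d → A) : S59ptMod ρ := x

theorem s59ptMod_smul_apply (f : A) (x : S59ptMod ρ) (i : Fin d) :
    (f • x) i = ∑ j, ρ f i j * x j := rfl

theorem s59ptMod_add_apply (x y : S59ptMod ρ) (i : Fin d) : (x + y) i = x i + y i := rfl

theorem s59ptMod_zero_apply (i : Fin d) : (0 : S59ptMod ρ) i = 0 := rfl

theorem s59ptMod_sum_apply {ι : Type} (s : Finset ι) (x : ι → S59ptMod ρ) (i : Fin d) :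
    (∑ k ∈ s, x k) i = ∑ k ∈ s, x k i := by
  classical
  induction s using Finset.induction_on with
  | empty => rfl
  | insert a s ha ih =>
    rw [Finset.sum_insert ha, Finset.sum_insert ha, s59ptMod_add_apply, ih]

theorem s59ptMod_ext {x y : S59ptMod ρ} (h : ∀ i, x i = y i) : x = y := funext h

/-- if `ρ a` is the scalar matrix `c`, then `a` acts as `c` -/
theorem s59ptMod_scalar_smul {a c : A}
    (h : ρ a = algebraMap A (Matrix (Fin d) (Fin d) A) c) (x : S59ptMod ρ) (i : Fin d) :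
    (a • x) i = c * x i := by
  classical
  rw [s59ptMod_smul_apply, h, Finset.sum_eq_single i]
  · rw [Matrix.algebraMap_matrix_apply, if_pos rfl]
    rfl
  · intro j _ hji
    rw [Matrix.algebraMap_matrix_apply, if_neg (Ne.symm hji), zero_mul]
  · intro h
    exact absurd (Finset.mem_univ i) h

end Mod

section OfLim

variable {𝒪 : Type} [CommRing 𝒪] {r : ℕ} {R : Type} [CommRing R] [Algebra 𝒪 R]
  {M : Type} [AddCommGroup M] [Module R M] [Module 𝒪 M] [IsScalarTower 𝒪 R M] {d : ℕ}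
  (m : Module.Basis (Fin d) 𝒪 M)

/-- the projection `A^d → M`, `x ↦ Σ x_j(0) m_j` -/
noncomputable def s59ptPi
    (ρ' : MvPowerSeries (Fin r) 𝒪 →+* Matrix (Fin d) (Fin d) (MvPowerSeries (Fin r) 𝒪)) :
    S59ptMod ρ' →+ M where
  toFun x := ∑ j, (constantCoeff (x j) : 𝒪) • m j
  map_zero' := by
    refine Finset.sum_eq_zero fun j _ => ?_
    rw [s59ptMod_zero_apply, map_zero, zero_smul]
  map_add' x y := by
    rw [← Finset.sum_add_distrib]
    refine Finset.sum_congr rfl fun j _ => ?_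
    rw [s59ptMod_add_apply, map_add, add_smul]

theorem s59ptPi_apply
    (ρ' : MvPowerSeries (Fin r) 𝒪 →+* Matrix (Fin d) (Fin d) (MvPowerSeries (Fin r) 𝒪))
    (x : S59ptMod ρ') : s59ptPi m ρ' x = ∑ j, (constantCoeff (x j) : 𝒪) • m j := rfl

theorem s59ptPi_eq_zero_iff
    (ρ' : MvPowerSeries (Fin r) 𝒪 →+* Matrix (Fin d) (Fin d) (MvPowerSeries (Fin r) 𝒪))
    (x : S59ptMod ρ') : s59ptPi m ρ' x = 0 ↔ ∀ j, (constantCoeff (x j) : 𝒪) = 0 := by
  rw [s59ptPi_apply]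
  constructor
  · intro h j
    exact Fintype.linearIndependent_iff.1 m.linearIndependent
      (fun j => (constantCoeff (x j) : 𝒪)) h j
  · intro h
    refine Finset.sum_eq_zero fun j _ => ?_
    rw [h j, zero_smul]

theorem s59ptPi_surjective
    (ρ' : MvPowerSeries (Fin r) 𝒪 →+* Matrix (Fin d) (Fin d) (MvPowerSeries (Fin r) 𝒪)) :
    Function.Surjective (s59ptPi m ρ') := by
  intro y
  refine ⟨s59ptModMk ρ' (fun j => MvPowerSeries.C (σ := Fin r) (R := 𝒪) (m.repr y j)), ?_⟩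
  rw [s59ptPi_apply]
  have h1 : ∀ j, (constantCoeff (s59ptModMk ρ'
      (fun j => MvPowerSeries.C (σ := Fin r) (R := 𝒪) (m.repr y j)) j) : 𝒪) = m.repr y j :=
    fun j => constantCoeff_C _
  simp only [h1]
  exact m.sum_repr y

variable {m}
  {ρ : MvPowerSeries (Fin r) 𝒪 →ₐ[𝒪] Matrix (Fin d) (Fin d) (MvPowerSeries (Fin r) 𝒪)}
  {φ : MvPowerSeries (Fin r) 𝒪 →ₐ[𝒪] MvPowerSeries (Fin r) 𝒪}
  {ψ : MvPowerSeries (Fin r) 𝒪 →ₐ[𝒪] R}
  (h : S59ptLim (constantCoeff (σ := Fin r) (R := 𝒪)) (s59ptTheta m)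
    (MvPowerSeries.X : Fin r → MvPowerSeries (Fin r) 𝒪) ρ φ ψ)

include h in
theorem s59pt_lim_psi_smul (f : MvPowerSeries (Fin r) 𝒪) (j : Fin d) :
    ψ f • m j = ∑ i, (constantCoeff (ρ f i j) : 𝒪) • m i := by
  rw [← m.sum_repr (ψ f • m j)]
  refine Finset.sum_congr rfl fun i _ => ?_
  rw [← s59ptTheta_apply, h.base, Matrix.map_apply]

include h in
theorem s59pt_lim_pi_smul (f : MvPowerSeries (Fin r) 𝒪)
    (x : S59ptMod ρ.toRingHom) :
    s59ptPi m ρ.toRingHom (f • x) =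
      ψ f • s59ptPi m ρ.toRingHom x := by
  rw [s59ptPi_apply, s59ptPi_apply, Finset.smul_sum]
  have h1 : ∀ i, (constantCoeff ((f • x) i) : 𝒪) • m i
      = ∑ j, ((constantCoeff (x j) : 𝒪) * constantCoeff (ρ f i j)) • m i := by
    intro i
    rw [s59ptMod_smul_apply, map_sum, Finset.sum_smul]
    refine Finset.sum_congr rfl fun j _ => ?_
    rw [map_mul, mul_comm]
    rfl
  simp only [h1]
  rw [Finset.sum_comm]
  refine Finset.sum_congr rfl fun j _ => ?_
  rw [smul_comm, s59pt_lim_psi_smul h, Finset.smul_sum]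
  refine Finset.sum_congr rfl fun i _ => ?_
  rw [smul_smul]

include h in
theorem s59pt_lim_phi_smul (c : MvPowerSeries (Fin r) 𝒪)
    (x : S59ptMod ρ.toRingHom) (i : Fin d) :
    (φ c • x) i = c * x i :=
  s59ptMod_scalar_smul _ (h.scal c) x i

include h in
theorem s59pt_lim_psi_eq_zero {a : MvPowerSeries (Fin r) 𝒪}
    (ha : a ∈ Ideal.span (Set.range fun i : Fin r => φ (MvPowerSeries.X i))) : ψ a = 0 := by
  have h1 : Ideal.span (Set.range fun i : Fin r => φ (MvPowerSeries.X i))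
      ≤ RingHom.ker (ψ : MvPowerSeries (Fin r) 𝒪 →+* R) := by
    rw [Ideal.span_le]
    rintro _ ⟨i, rfl⟩
    exact h.rel i
  exact h1 ha

include h in
theorem s59pt_lim_ker (x : S59ptMod ρ.toRingHom) :
    s59ptPi m ρ.toRingHom x = 0 ↔
      x ∈ (Ideal.span (Set.range fun i : Fin r => φ (MvPowerSeries.X i))) •
        (⊤ : Submodule (MvPowerSeries (Fin r) 𝒪)
          (S59ptMod ρ.toRingHom)) := by
  constructor
  · intro hx
    rw [s59ptPi_eq_zero_iff] at hx
    have h1 : ∀ j, ∃ w : Fin r → MvPowerSeries (Fin r) 𝒪, x j = ∑ i, w i * MvPowerSeries.X i :=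
      fun j => s59pt_exists_sum_X ((s59pt_mem_X_iff _).2 (hx j))
    choose w hw using h1
    have h2 : x = ∑ i, φ (MvPowerSeries.X i) •
        s59ptModMk ρ.toRingHom (fun j => w j i) := by
      apply s59ptMod_ext
      intro j
      rw [s59ptMod_sum_apply, hw j]
      refine Finset.sum_congr rfl fun i _ => ?_
      rw [s59pt_lim_phi_smul h, mul_comm]
      rfl
    rw [h2]
    exact Submodule.sum_mem _ fun i _ =>
      Submodule.smul_mem_smul (Ideal.subset_span ⟨i, rfl⟩) Submodule.mem_top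
  · intro hx
    refine Submodule.smul_induction_on hx ?_ ?_
    · intro a ha y _
      rw [s59pt_lim_pi_smul h, s59pt_lim_psi_eq_zero h ha, zero_smul]
    · intro x y hx hy
      rw [map_add, hx, hy, add_zero]

/-- the standard frame of `A^d` -/
noncomputable def s59ptStd
    (ρ' : MvPowerSeries (Fin r) 𝒪 →+* Matrix (Fin d) (Fin d) (MvPowerSeries (Fin r) 𝒪))
    (i : Fin d) : S59ptMod ρ' :=
  s59ptModMk ρ' (Pi.single i 1)

include h in
theorem s59pt_lim_sum_std (c : Fin d → MvPowerSeries (Fin r) 𝒪) (j : Fin d) :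
    (∑ i, φ (c i) • s59ptStd ρ.toRingHom i) j = c j := by
  classical
  rw [s59ptMod_sum_apply, Finset.sum_eq_single j]
  · rw [s59pt_lim_phi_smul h]
    show c j * (Pi.single j 1 : Fin d → MvPowerSeries (Fin r) 𝒪) j = c j
    rw [Pi.single_eq_same, mul_one]
  · intro i _ hij
    rw [s59pt_lim_phi_smul h]
    show c i * (Pi.single i 1 : Fin d → MvPowerSeries (Fin r) 𝒪) j = 0
    rw [Pi.single_eq_of_ne (Ne.symm hij), mul_zero]
  · intro h
    exact absurd (Finset.mem_univ j) h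

/-- **a limit datum gives a patching level with `J = ⊥`** -/
noncomputable def s59ptLevelOfLim : Algebra.PatchingLevel 𝒪 r R M ⊥ where
  N := S59ptMod ρ.toRingHom
  instAddCommGroup := s59ptModAddCommGroup ρ.toRingHom
  instModule := s59ptModModule ρ.toRingHom
  φ := φ
  ψ := ψ
  ψ_surjective := h.surj
  ψ_φ_X := h.rel
  π := s59ptPi m ρ.toRingHom
  π_smul := fun f x => s59pt_lim_pi_smul h f x
  π_surjective := s59ptPi_surjective m _
  ker_π := fun x => s59pt_lim_ker h x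
  d := d
  b := s59ptStd ρ.toRingHom
  b_span x := ⟨fun j => x j, s59ptMod_ext _ fun j => (s59pt_lim_sum_std h _ j).symm⟩
  b_rel c := by
    constructor
    · intro hc i
      rw [Ideal.mem_bot, ← s59pt_lim_sum_std h c i, hc]
      rfl
    · intro hc
      apply s59ptMod_ext
      intro j
      rw [s59pt_lim_sum_std h c j]
      exact (Ideal.mem_bot).1 (hc j)

end OfLim

section Lev

variable {𝒪 : Type} [CommRing 𝒪] [IsLocalRing 𝒪] {r : ℕ} {R : Type} [CommRing R] [Algebra 𝒪 R]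
  [IsLocalRing R] {M : Type} [AddCommGroup M] [Module R M] [Module 𝒪 M] [IsScalarTower 𝒪 R M]
  {d : ℕ} (m : Module.Basis (Fin d) 𝒪 M)
  {J : Ideal (MvPowerSeries (Fin r) 𝒪)} (L : Algebra.PatchingLevel 𝒪 r R M J)

include L in
/-- every patching level with `J ≤ (X)`, `J ≤ 𝔪 ^ k` gives a level datum at level `k` -/
theorem s59pt_lev (hJX : J ≤ s59ptX 𝒪 r) (k : ℕ)
    (hJk : J ≤ maximalIdeal (MvPowerSeries (Fin r) 𝒪) ^ k) :
    ∃ ρ φ ψ, S59ptLev (maximalIdeal (MvPowerSeries (Fin r) 𝒪)) (maximalIdeal R) (maximalIdeal 𝒪)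
      (constantCoeff (σ := Fin r) (R := 𝒪)) (fun k => s59pt_eps_pow k) (s59ptTheta m)
      (MvPowerSeries.X : Fin r → MvPowerSeries (Fin r) 𝒪) k ρ φ ψ := by
  obtain ⟨b', hb', hπ⟩ := s59pt_exists_adapted (s59pt_frame_self L) hJX m
  refine ⟨s59ptRep hb' _ hJk, (Ideal.Quotient.mkₐ 𝒪 _).comp L.φ,
    (Ideal.Quotient.mkₐ 𝒪 _).comp L.ψ, ⟨?_, ?_, ?_, ?_⟩⟩
  · intro c
    exact ⟨L.φ c, rfl, s59ptRep_phi hb' _ hJk c⟩
  · intro i
    refine ⟨L.φ (MvPowerSeries.X i), rfl, ?_⟩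
    show Ideal.Quotient.mk _ (L.ψ (L.φ (MvPowerSeries.X i))) = 0
    rw [L.ψ_φ_X, map_zero]
  · intro y
    obtain ⟨a, rfl⟩ := L.ψ_surjective y
    exact ⟨a, rfl⟩
  · intro f
    refine ⟨L.ψ f, rfl, ?_⟩
    rw [s59pt_theta_psi m hπ (s59ptChoose_spec hb' f),
      s59ptRep_eq hb' _ hJk (s59ptChoose_spec hb' f)]
    ext i j
    simp only [Matrix.map_apply, Ideal.quotientMap_mk]

end Lev

section Main

open Fermat.Agent.RT.K2c

/-- the patching theorem, with the `𝒪`-module structure of `M` as a parameter -/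
theorem s59pt_main_aux {𝒪 : Type} [CommRing 𝒪] [IsDomain 𝒪] [IsDiscreteValuationRing 𝒪]
    [IsAdicComplete (maximalIdeal 𝒪) 𝒪] [Finite (ResidueField 𝒪)] (ℓ : ℕ)
    (hℓ : (ℓ : 𝒪) ∈ maximalIdeal 𝒪) {r : ℕ} {R : Type} [CommRing R] [Algebra 𝒪 R] [Nontrivial R]
    {M : Type} [AddCommGroup M] [Module R M] [Module 𝒪 M] [IsScalarTower 𝒪 R M]
    (D : Algebra.PatchingDatum 𝒪 ℓ r R M) : Nonempty (Algebra.PatchingLevel 𝒪 r R M ⊥) := by
  have hψ₀ : Function.Surjective ((D.level 0).ψ : MvPowerSeries (Fin r) 𝒪 →+* R) :=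
    (D.level 0).ψ_surjective
  haveI : IsLocalRing R := IsLocalRing.of_surjective' _ hψ₀
  haveI : IsNoetherianRing R := isNoetherianRing_of_surjective _ R _ hψ₀
  haveI : IsAdicComplete (maximalIdeal (MvPowerSeries (Fin r) 𝒪)) (MvPowerSeries (Fin r) 𝒪) :=
    rtk2c_isAdicComplete
  haveI : Finite (ResidueField (MvPowerSeries (Fin r) 𝒪)) := rtk2c_finite_residueField
  haveI : IsAdicComplete (maximalIdeal R) R := rtk2c_isAdicComplete_of_surjective _ hψ₀
  haveI : Finite (ResidueField R) := rtk2c_finite_residueField_of_surjective _ hψ₀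
  obtain ⟨ρ, φ, ψ, h⟩ := s59pt_limit (maximalIdeal (MvPowerSeries (Fin r) 𝒪)) (maximalIdeal R)
    (maximalIdeal 𝒪) (constantCoeff (σ := Fin r) (R := 𝒪)) (fun k => s59pt_eps_pow k)
    (s59ptTheta (s59ptBasis (s59pt_frame_self (D.level 0)) (s59pt_J_le_X ℓ 0)))
    (MvPowerSeries.X : Fin r → MvPowerSeries (Fin r) 𝒪)
    (IsLocalRing.maximalIdeal_le_jacobson ⊥) (fun k => rtk2c_finite_quotient_pow k)
    (IsLocalRing.maximalIdeal_le_jacobson ⊥) (fun k => rtk2c_finite_quotient_pow k)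
    (fun k => rtk2c_finite_quotient_pow k)
    (fun k => s59pt_lev _ (D.level k) (s59pt_J_le_X ℓ k) k (s59pt_J_le_pow ℓ hℓ k))
  exact ⟨s59ptLevelOfLim h⟩

/-- **The patching theorem** (Taylor–Wiles–Diamond–Fujiwara), in the prelude's form: a patching
datum gives a patching level with trivial relation ideal. -/
theorem s59pt_main {𝒪 : Type} [CommRing 𝒪] [IsDomain 𝒪] [IsDiscreteValuationRing 𝒪]
    [IsAdicComplete (maximalIdeal 𝒪) 𝒪] [Finite (ResidueField 𝒪)] (ℓ : ℕ)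
    (hℓ : (ℓ : 𝒪) ∈ maximalIdeal 𝒪) {r : ℕ} {R : Type} [CommRing R] [Algebra 𝒪 R] [Nontrivial R]
    {M : Type} [AddCommGroup M] [Module R M]
    (D : Algebra.PatchingDatum 𝒪 ℓ r R M) : Nonempty (Algebra.PatchingLevel 𝒪 r R M ⊥) := by
  letI : Module 𝒪 M := Module.compHom M (algebraMap 𝒪 R)
  haveI : IsScalarTower 𝒪 R M := IsScalarTower.of_algebraMap_smul fun _ _ => rfl
  exact s59pt_main_aux ℓ hℓ D

end Main

end Fermat.Agent.S59
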